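import Mathlib.NumberTheory.LegendreSymbol.JacobiSymbol
import Mathlib.NumberTheory.PrimeCounting

/-!
# The least quadratic non-residue

It is a prime `< p`, all smaller numbers are squares, and `(n - 1) ^ 2 ≤ p`.
-/

set_option autoImplicit false

noncomputable section

open scoped Classical NumberTheorySymbols

namespace FA.ErdosNonresidueMean

/-- The least natural number that is not a square modulo `p` (`0` if there is none). -/
def leastNonSquare (p : ℕ) : ℕ := sInf {m : ℕ | ¬ IsSquare (m : ZMod p)}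

theorem leastNonSquare_two : leastNonSquare 2 = 0 := by
  rw [leastNonSquare, Nat.sInf_eq_zero]
  refine Or.inr (Set.eq_empty_iff_forall_notMem.2 fun m hm => hm ?_)
  generalize (m : ZMod 2) = x
  revert x
  decide

variable {p : ℕ}

theorem leastNonSquare_spec (hp : p.Prime) (hp2 : p ≠ 2) :
    ¬ IsSquare (leastNonSquare p : ZMod p) := by
  haveI := Fact.mk hp
  obtain ⟨a, ha⟩ := FiniteField.exists_nonsquare (F := ZMod p) (by rwa [ZMod.ringChar_zmod_n])
  exact Nat.sInf_mem (s := {m : ℕ | ¬ IsSquare (m : ZMod p)})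
    ⟨a.val, by rwa [Set.mem_ofPred_eq, ZMod.natCast_zmod_val]⟩

theorem isSquare_of_lt_leastNonSquare {m : ℕ} (h : m < leastNonSquare p) :
    IsSquare (m : ZMod p) :=
  not_not.1 (Nat.notMem_of_lt_sInf h)

theorem leastNonSquare_lt (hp : p.Prime) (hp2 : p ≠ 2) : leastNonSquare p < p := by
  haveI := Fact.mk hp
  obtain ⟨a, ha⟩ := FiniteField.exists_nonsquare (F := ZMod p) (by rwa [ZMod.ringChar_zmod_n])
  exact lt_of_le_of_lt (Nat.sInf_le (s := {m : ℕ | ¬ IsSquare (m : ZMod p)})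
    (by rwa [Set.mem_ofPred_eq, ZMod.natCast_zmod_val] : a.val ∈ _)) (ZMod.val_lt a)

theorem two_le_leastNonSquare (hp : p.Prime) (hp2 : p ≠ 2) : 2 ≤ leastNonSquare p := by
  by_contra h
  have h' := leastNonSquare_spec hp hp2
  rcases (show leastNonSquare p = 0 ∨ leastNonSquare p = 1 by omega) with e | e <;>
    simp [e] at h'

theorem prime_leastNonSquare (hp : p.Prime) (hp2 : p ≠ 2) : (leastNonSquare p).Prime := by
  rw [Nat.prime_def_lt]
  refine ⟨two_le_leastNonSquare hp hp2, fun d hd ⟨e, he⟩ => ?_⟩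
  by_contra hd1
  have h2 := two_le_leastNonSquare hp hp2
  rcases Nat.eq_zero_or_pos d with rfl | hd0
  · rw [zero_mul] at he
    omega
  refine leastNonSquare_spec hp hp2 ?_
  rw [he, Nat.cast_mul]
  refine (isSquare_of_lt_leastNonSquare hd).mul (isSquare_of_lt_leastNonSquare ?_)
  have he0 : 0 < e := Nat.pos_of_ne_zero fun h => by rw [h, mul_zero] at he; omega
  rw [he]
  exact (Nat.lt_mul_iff_one_lt_left he0).2 (by omega)

theorem sq_pred_le (hp : p.Prime) (hp2 : p ≠ 2) : (leastNonSquare p - 1) ^ 2 ≤ p := by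
  haveI := Fact.mk hp
  obtain ⟨n, hn⟩ : ∃ n, n = leastNonSquare p := ⟨_, rfl⟩
  have h2 : 2 ≤ n := hn ▸ two_le_leastNonSquare hp hp2
  have hlt : n < p := hn ▸ leastNonSquare_lt hp hp2
  obtain ⟨r, hr⟩ : ∃ r, r = p / n + 1 := ⟨_, rfl⟩
  have hdiv : n * (p / n) + p % n = p := Nat.div_add_mod p n
  have hmod : p % n < n := Nat.mod_lt _ (by omega)
  rw [← hn]
  by_contra hbig
  rw [not_le] at hbig
  have hrn : r < n := by
    by_contra hc
    have h1 : n * (n - 1) ≤ n * (p / n) := Nat.mul_le_mul_left n (by omega)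
    have h3 : (n - 1) * (n - 1) ≤ n * (n - 1) := Nat.mul_le_mul_right _ (Nat.sub_le n 1)
    rw [sq] at hbig
    omega
  have hr0 : (r : ZMod p) ≠ 0 := fun e => by
    have := Nat.le_of_dvd (show 0 < r by rw [hr]; exact Nat.succ_pos _)
      ((ZMod.natCast_eq_zero_iff r p).1 e)
    omega
  obtain ⟨x, hx⟩ := isSquare_of_lt_leastNonSquare (hn ▸ hrn)
  obtain ⟨y, hy⟩ : IsSquare (((n - p % n : ℕ) : ZMod p)) := by
    rcases Nat.eq_zero_or_pos (p % n) with h0 | h0
    · exfalso
      have hnp : n ∣ p := Nat.dvd_of_mod_eq_zero h0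
      rcases (Nat.dvd_prime hp).1 hnp with h | h <;> omega
    · exact isSquare_of_lt_leastNonSquare (hn ▸ Nat.sub_lt (by omega) h0)
  refine leastNonSquare_spec hp hp2 ?_
  rw [← hn]
  have key : (r : ZMod p) * n = ((n - p % n : ℕ) : ZMod p) := by
    have e : r * n = (n - p % n) + p := by
      rw [hr, add_mul, one_mul, mul_comm (p / n) n]
      omega
    rw [← Nat.cast_mul, e, Nat.cast_add, ZMod.natCast_self, add_zero]
  refine ⟨y / x, ?_⟩
  rw [div_mul_div_comm, ← hy, ← key, ← hx, mul_div_cancel_left₀ _ hr0]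

/-- All primes below are squares. -/
theorem le_leastNonSquare_iff (hp : p.Prime) (hp2 : p ≠ 2) {y : ℕ} :
    y ≤ leastNonSquare p ↔ ∀ q < y, q.Prime → IsSquare (q : ZMod p) :=
  ⟨fun h _ hq _ => isSquare_of_lt_leastNonSquare (hq.trans_le h),
    fun h => not_lt.1 fun hlt => leastNonSquare_spec hp hp2
      (h _ hlt (prime_leastNonSquare hp hp2))⟩

theorem jacobiSym_eq_one_iff {q : ℕ} (hp : p.Prime) (h : ¬ p ∣ q) :
    J((q : ℤ) | p) = 1 ↔ IsSquare (q : ZMod p) := by
  haveI := Fact.mk hp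
  rw [← jacobiSym.legendreSym.to_jacobiSym, legendreSym.eq_one_iff' p]
  rwa [Ne, ZMod.natCast_eq_zero_iff]

theorem jacobiSym_eq_neg_one_iff {q : ℕ} (hp : p.Prime) :
    J((q : ℤ) | p) = -1 ↔ ¬ IsSquare (q : ZMod p) := by
  haveI := Fact.mk hp
  rw [← jacobiSym.legendreSym.to_jacobiSym, legendreSym.eq_neg_one_iff' p]

theorem not_dvd_of_lt {q : ℕ} (hp : p.Prime) (hp2 : p ≠ 2) (hq : q.Prime)
    (h : q ≤ leastNonSquare p) : ¬ p ∣ q := fun hd => by
  rw [Nat.prime_dvd_prime_iff_eq hp hq] at hd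
  have := leastNonSquare_lt hp hp2
  omega

end FA.ErdosNonresidueMean

end
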