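import Fermat.Agent.ErdosNonresidueMean.Basic
import Fermat.Agent.OdoniJones.Frobenius
import Fermat.Agent.HasseEvenOrder.Main

/-!
# The primes with prescribed Legendre symbols

For an integer `m` that is no square the sum of `(m / p)` over `p ≤ N` is `o (N / log N)`; so the
primes with given symbols at `k` given primes have natural density `2 ^ (-k)`.
-/

set_option autoImplicit false
set_option linter.style.haveILetI false

noncomputable section

open Filter Topology Finset
open FA.HasseEvenOrder (HasPrimeDensity primeCount PowCond hasPrimeDensity_powCond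
  finrank_eq_totient_mul hasPrimeDensity_true primeCount_add primeCount_congr)
open scoped Classical NumberTheorySymbols

namespace FA.ErdosNonresidueMean

/-- The primes up to `N`. -/
def primesTo (N : ℕ) : Finset ℕ := (Icc 1 N).filter Nat.Prime

theorem mem_primesTo {N p : ℕ} : p ∈ primesTo N ↔ p ≤ N ∧ p.Prime := by
  rw [primesTo, mem_filter, mem_Icc]
  exact ⟨fun h => ⟨h.1.2, h.2⟩, fun h => ⟨⟨h.2.one_le, h.1⟩, h.2⟩⟩

theorem primeCount_eq (P : ℕ → Prop) (N : ℕ) :
    primeCount P N = ((primesTo N).filter P).card := by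
  rw [primeCount, primesTo, filter_filter]

theorem dens_half {m : ℤ} (hm : m ≠ 0) (hsq : ¬ IsSquare m) :
    FA.HasseEvenOrder.dens m 2 1 1 = 1 / 2 := by
  haveI : NeZero (2 ^ 1) := ⟨by norm_num⟩
  obtain ⟨ζ, α, hζ, hα, htop⟩ := FA.ArtinAll.exists_mixed_gens
    (L := FA.ArtinAll.MixedField m (2 ^ 1) (2 ^ 1)) hm (dvd_refl (2 ^ 1))
  have hb : ∀ b : IntermediateField.adjoin ℚ {ζ}, b ^ 2 ≠ (m : IntermediateField.adjoin ℚ {ζ}) :=
    fun b hb => by
    have hle : IntermediateField.adjoin ℚ {ζ} ≤ ⊥ := by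
      rw [IntermediateField.adjoin_le_iff, Set.singleton_subset_iff,
        (by simpa using hζ : IsPrimitiveRoot ζ 2).eq_neg_one_of_two_right]
      exact neg_mem (one_mem _)
    obtain ⟨c, hc⟩ := IntermediateField.mem_bot.1 (hle b.2)
    refine hsq (Rat.isSquare_intCast_iff.1 ⟨c, ?_⟩)
    apply (algebraMap ℚ (FA.ArtinAll.MixedField m (2 ^ 1) (2 ^ 1))).injective
    rw [map_mul, hc, map_intCast, ← sq]
    exact ((congrArg Subtype.val hb).trans (by simp)).symm
  unfold FA.HasseEvenOrder.dens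
  rw [finrank_eq_totient_mul (s := (m : IntermediateField.adjoin ℚ {ζ})) hζ htop
    (n := 2 ^ 1) (by norm_num) (by rw [hα]; push_cast; rfl)
    (fun q hq hd b => by
      rw [pow_one, Nat.prime_dvd_prime_iff_eq hq Nat.prime_two] at hd
      subst hd
      exact hb b)
    (fun h => absurd h (by norm_num)), show Nat.totient (2 ^ 1) = 1 by decide]
  norm_num

/-- **Half of the primes have `(m / p) = 1`.** -/
theorem hasPrimeDensity_jacobi_one {m : ℤ} (hm : m ≠ 0) (hsq : ¬ IsSquare m) :
    HasPrimeDensity (fun p => J(m | p) = 1) (1 / 2) := by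
  have h := hasPrimeDensity_powCond (a := m) hm Nat.prime_two (le_refl 1)
  rw [dens_half hm hsq] at h
  refine h.congr_off (N := 2 * m.natAbs) (by simp [hm]) fun p hp hd => ?_
  haveI := Fact.mk hp
  have hp2 : p ≠ 2 := fun e => hd (by rw [e]; exact dvd_mul_right 2 _)
  have hpm : (m : ZMod p) ≠ 0 := fun e =>
    hd ((Int.natCast_dvd.1 ((ZMod.intCast_zmod_eq_zero_iff_dvd m p).1 e)).mul_left _)
  have hodd := Nat.odd_iff.1 (hp.odd_of_ne_two hp2)
  rw [PowCond, pow_one, ← ZMod.intCast_zmod_eq_zero_iff_dvd, Int.cast_sub, Int.cast_pow,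
    Int.cast_one, sub_eq_zero, ← jacobiSym.legendreSym.to_jacobiSym,
    show (p - 1) / 2 = p / 2 by omega, ← legendreSym.eq_pow p m, and_iff_right (by omega)]
  rcases legendreSym.eq_one_or_neg_one p hpm with e | e
  · simp [e]
  · rw [e]
    refine iff_of_false (fun h1 => ?_) (by decide)
    have h2 : ((2 : ℕ) : ZMod p) = 0 := by push_cast at h1 ⊢; linear_combination -h1
    exact hp2 ((Nat.prime_dvd_prime_iff_eq hp Nat.prime_two).1
      ((ZMod.natCast_eq_zero_iff _ p).1 h2))

/-- The sum of `(m / p)`. -/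
def symSum (m : ℤ) (N : ℕ) : ℝ := ∑ p ∈ primesTo N, (J(m | p) : ℝ)

theorem tendsto_symSum {m : ℤ} (hm : m ≠ 0) (hsq : ¬ IsSquare m) :
    Tendsto (fun N : ℕ => symSum m N * Real.log N / N) atTop (𝓝 0) := by
  have h0 : HasPrimeDensity (fun p => J(m | p) = 0) 0 :=
    .of_finite (m.natAbs.primeFactors.finite_toSet.subset fun p hp => by
      obtain ⟨hp, h⟩ := hp
      haveI := Fact.mk hp
      rw [← jacobiSym.legendreSym.to_jacobiSym, legendreSym.eq_zero_iff,
        ZMod.intCast_zmod_eq_zero_iff_dvd] at h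
      rw [mem_coe, Nat.mem_primeFactors]
      exact ⟨hp, Int.natCast_dvd.1 h, Int.natAbs_ne_zero.2 hm⟩)
  have h : Tendsto (fun N : ℕ =>
      2 * ((primeCount (fun p => J(m | p) = 1) N : ℝ) * Real.log N / N) +
        ((primeCount (fun p => J(m | p) = 0) N : ℝ) * Real.log N / N) -
          (primeCount (fun _ => True) N : ℝ) * Real.log N / N) atTop
            (𝓝 (2 * (1 / 2) + 0 - 1)) :=
    (((hasPrimeDensity_jacobi_one hm hsq).const_mul 2).add h0).sub hasPrimeDensity_true
  rw [show (2 : ℝ) * (1 / 2) + 0 - 1 = 0 by norm_num] at h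
  refine h.congr fun N => ?_
  have e : symSum m N = 2 * (primeCount (fun p => J(m | p) = 1) N : ℝ) +
      primeCount (fun p => J(m | p) = 0) N - primeCount (fun _ => True) N := by
    rw [symSum, primeCount_eq, primeCount_eq, primeCount_eq, card_filter, card_filter, card_filter]
    push_cast
    rw [mul_sum, ← sum_add_distrib, ← sum_sub_distrib]
    refine sum_congr rfl fun p hp => ?_
    rcases jacobiSym.trichotomy m p with e | e | e <;> rw [e] <;> norm_num
  rw [e]
  ring

theorem not_isSquare_prod {T : Finset ℕ} (hT : ∀ q ∈ T, q.Prime) (hne : T.Nonempty) :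
    ¬ IsSquare ((∏ q ∈ T, q : ℕ) : ℤ) := by
  rintro hsq
  rw [Int.isSquare_natCast_iff] at hsq
  obtain ⟨c, hc⟩ := hsq
  obtain ⟨q, hq⟩ := hne
  have hqc : q ∣ c := by
    rcases (hT q hq).dvd_mul.1 (hc ▸ dvd_prod_of_mem _ hq : q ∣ c * c) with h | h <;> exact h
  obtain ⟨d, rfl⟩ := hqc
  rw [← mul_prod_erase T _ hq, mul_assoc] at hc
  have hd : q ∣ ∏ x ∈ T.erase q, x := by
    rw [Nat.eq_of_mul_eq_mul_left (hT q hq).pos hc]
    exact ⟨d * d, by ring⟩
  obtain ⟨x, hx, hqx⟩ := (Nat.prime_iff.1 (hT q hq)).dvd_finsetProd_iff _ |>.1 hd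
  exact ne_of_mem_erase hx
    ((Nat.prime_dvd_prime_iff_eq (hT q hq) (hT x (mem_of_mem_erase hx))).1 hqx).symm

/-- `-1` on `T`, `1` elsewhere. -/
def sgn (T : Finset ℕ) (q : ℕ) : ℤ := if q ∈ T then -1 else 1

/-- The Legendre symbols at `S` are `-1` exactly on `T`. -/
def Pattern (S T : Finset ℕ) (p : ℕ) : Prop := ∀ q ∈ S, J((q : ℤ) | p) = sgn T q

/-- **The density of a pattern.** -/
theorem hasPrimeDensity_pattern {S : Finset ℕ} (hS : ∀ q ∈ S, q.Prime) (T : Finset ℕ) :
    HasPrimeDensity (Pattern S T) ((1 / 2) ^ S.card) := by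
  have hlim : Tendsto (fun N : ℕ => (1 / 2 : ℝ) ^ S.card * ∑ U ∈ S.powerset,
      (∏ q ∈ U, (sgn T q : ℝ)) * (symSum ((∏ q ∈ U, q : ℕ) : ℤ) N * Real.log N / N))
      atTop (𝓝 ((1 / 2) ^ S.card * 1)) := by
    refine Tendsto.const_mul _ ?_
    rw [show (1 : ℝ) = ∑ U ∈ S.powerset, (∏ q ∈ U, (sgn T q : ℝ)) * (if U = ∅ then 1 else 0) by
      simp]
    refine tendsto_finsetSum _ fun U hU => Tendsto.const_mul _ ?_
    split_ifs with hU0
    · subst hU0
      refine Tendsto.congr (fun N => ?_) hasPrimeDensity_true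
      rw [symSum, primeCount_eq]
      simp
    · refine tendsto_symSum ?_ (not_isSquare_prod (fun q hq => hS q (mem_powerset.1 hU hq))
        (nonempty_iff_ne_empty.2 hU0))
      exact Nat.cast_ne_zero.2 (prod_ne_zero_iff.2 fun q hq =>
        (hS q (mem_powerset.1 hU hq)).ne_zero)
  rw [mul_one] at hlim
  obtain ⟨W, hW⟩ : ∃ W : ℕ → ℝ, ∀ p, W p = ∏ q ∈ S, (1 + sgn T q * J((q : ℤ) | p)) / (2 : ℝ) :=
    ⟨_, fun _ => rfl⟩
  have hWeq : ∀ N, ∑ p ∈ primesTo N, W p = (1 / 2 : ℝ) ^ S.card * ∑ U ∈ S.powerset,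
      (∏ q ∈ U, (sgn T q : ℝ)) * symSum ((∏ q ∈ U, q : ℕ) : ℤ) N := fun N => by
    rw [mul_sum]
    simp only [symSum, mul_sum]
    rw [sum_comm]
    refine sum_congr rfl fun p _ => ?_
    rw [hW, prod_div_distrib, prod_const, prod_one_add, sum_div]
    refine sum_congr rfl fun U hU => ?_
    clear hU
    rw [prod_mul_distrib, one_div, inv_pow, div_eq_inv_mul, Nat.cast_prod]
    congr 2
    induction U using Finset.induction with
    | empty => simp
    | insert a U ha ih => simp [prod_insert ha, jacobiSym.mul_left, ih]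
  have hdiff : ∀ N, |(primeCount (Pattern S T) N : ℝ) - ∑ p ∈ primesTo N, W p| ≤ S.card :=
      fun N => by
    rw [primeCount_eq, card_filter, Nat.cast_sum, ← sum_sub_distrib]
    refine (abs_sum_le_sum_abs _ _).trans ?_
    refine le_trans (sum_le_sum (g := fun p => if p ∈ S then (1 : ℝ) else 0) fun p hp => ?_) ?_
    · have hpp := (mem_primesTo.1 hp).2
      have hval : ∀ q ∈ S, ((1 : ℝ) + sgn T q * J((q : ℤ) | p)) / 2 ∈ Set.Icc (0 : ℝ) 1 :=
          fun q _ =>
          by
        rw [sgn]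
        rcases jacobiSym.trichotomy (q : ℤ) p with e | e | e <;> rw [e] <;> split_ifs <;> norm_num
      split_ifs with hP hpS hpS
      · rw [hW]
        refine abs_le.2 ⟨?_, ?_⟩ <;>
          linarith [prod_nonneg fun q hq => (hval q hq).1,
            prod_le_one (fun q hq => (hval q hq).1) fun q hq => (hval q hq).2]
      · rw [hW, prod_eq_one fun q hq => ?_]
        · simp
        rw [hP q hq, sgn]
        split_ifs <;> norm_num
      · rw [hW, Nat.cast_zero, zero_sub, abs_neg]
        exact abs_le.2 ⟨by linarith [prod_nonneg fun q hq => (hval q hq).1],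
          prod_le_one (fun q hq => (hval q hq).1) fun q hq => (hval q hq).2⟩
      · rw [Pattern] at hP
        push Not at hP
        obtain ⟨q, hq, hne⟩ := hP
        rw [hW, prod_eq_zero hq]
        · simp
        have hz : J((q : ℤ) | p) ≠ 0 := fun e => by
          haveI := Fact.mk hpp
          rw [← jacobiSym.legendreSym.to_jacobiSym, legendreSym.eq_zero_iff, Int.cast_natCast,
            ZMod.natCast_eq_zero_iff, Nat.prime_dvd_prime_iff_eq hpp (hS q hq)] at e
          exact hpS (e ▸ hq)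
        rw [sgn] at hne ⊢
        rcases jacobiSym.trichotomy (q : ℤ) p with e | e | e <;> rw [e] at hne hz ⊢ <;>
          split_ifs at hne ⊢ <;> simp_all
    · rw [sum_boole]
      exact_mod_cast card_le_card fun p hp => (mem_filter.1 hp).2
  have herr : Tendsto (fun N : ℕ => ((primeCount (Pattern S T) N : ℝ) -
      ∑ p ∈ primesTo N, W p) * Real.log N / N) atTop (𝓝 0) := by
    refine squeeze_zero_norm (fun N => ?_)
      (FA.HasseEvenOrder.tendsto_const_mul_log_div (S.card : ℝ))
    rw [Real.norm_eq_abs, abs_div, abs_mul, Nat.abs_cast,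
      abs_of_nonneg (Real.log_natCast_nonneg N)]
    exact div_le_div_of_nonneg_right (mul_le_mul_of_nonneg_right (hdiff N)
      (Real.log_natCast_nonneg N)) (Nat.cast_nonneg N)
  have h := herr.add hlim
  rw [zero_add] at h
  refine h.congr fun N => ?_
  rw [sub_mul, sub_div, hWeq, mul_sum, mul_sum, sum_mul, sum_div]
  rw [show ∀ a b c : ℝ, b = c → a - b + c = a from fun a b c h => by rw [h]; ring]
  exact sum_congr rfl fun U _ => by ring

theorem exists_prime_pattern {S : Finset ℕ} (hS : ∀ q ∈ S, q.Prime) (T : Finset ℕ) (B : ℕ) :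
    ∃ p, B < p ∧ p.Prime ∧ Pattern S T p := by
  by_contra hc
  push Not at hc
  have hfin : {p : ℕ | p.Prime ∧ Pattern S T p}.Finite :=
    (Set.finite_Iic B).subset fun p hp => not_lt.1 fun h => hc p h hp.1 hp.2
  have := tendsto_nhds_unique (hasPrimeDensity_pattern hS T) (HasPrimeDensity.of_finite hfin)
  exact absurd this (by positivity)

end FA.ErdosNonresidueMean

end
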