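import Fermat.Agent.ErdosNonresidueMean.Series

/-!
# Erdős' theorem on the average least quadratic non-residue

The primes with `n_p ≥ q_K` are handled in four ranges: up to `log₁₆ (N / 64)` by Brun and
Titchmarsh, up to `(log₂ N) ^ 10` by the same bound, up to `N ^ (3/10)` by the large sieve with
smooth numbers, and beyond by Linnik's theorem and `n_p ≤ √p + 1`.
-/

set_option autoImplicit false

noncomputable section

open Finset Filter Topology
open FA.HasseEvenOrder (HasPrimeDensity primeCount tendsto_const_mul_log_div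
  tendsto_sqrt_mul_log_div hasPrimeDensity_true tendsto_ratio)
open scoped Classical

namespace FA.ErdosNonresidueMean

/-- The sum of the least non-residues. -/
def nonSquareSum (N : ℕ) : ℝ := ∑ p ∈ primesTo N, (leastNonSquare p : ℝ)

/-- The part with `n_p ≥ q_K`. -/
def tailSum (K N : ℕ) : ℝ :=
  ∑ p ∈ (primesTo N).filter (fun p => qp K ≤ leastNonSquare p), (leastNonSquare p : ℝ)

theorem nonSquareSum_eq (K N : ℕ) :
    nonSquareSum N =
      (∑ k ∈ range K, (qp k : ℝ) * primeCount (fun p => leastNonSquare p = qp k) N) +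
        tailSum K N := by
  rw [nonSquareSum, tailSum, ← sum_filter_add_sum_filter_not (primesTo N)
    (fun p => qp K ≤ leastNonSquare p), add_comm]
  refine congrArg (· + _) ?_
  simp only [primeCount_eq, card_filter, Nat.cast_sum, mul_sum]
  rw [sum_comm, sum_filter]
  refine sum_congr rfl fun p hp => ?_
  have hpp := (mem_primesTo.1 hp).2
  push_cast
  rcases eq_or_ne p 2 with rfl | hp2
  · rw [leastNonSquare_two]
    refine (ite_eq_right_iff.2 fun _ => Nat.cast_zero).trans (sum_eq_zero fun k _ => ?_).symm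
    rw [if_neg fun e => (prime_qp k).ne_zero e.symm, mul_zero]
  obtain ⟨j, hj⟩ := exists_qp_eq (prime_leastNonSquare hpp hp2)
  rw [← hj]
  split_ifs with h
  · refine (sum_eq_zero fun k hk => ?_).symm
    rw [if_neg fun e => ?_, mul_zero]
    refine not_lt.2 h (qp_lt_qp.2 ?_)
    rw [qp_injective e]
    exact mem_range.1 hk
  · refine (sum_eq_single j (fun k _ hk => ?_) fun hj' => ?_).trans ?_ |>.symm
    · rw [if_neg fun e => hk (qp_injective e.symm), mul_zero]
    · rw [mem_range] at hj'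
      exact absurd (qp_lt_qp.1 (not_le.1 h)) hj'
    · rw [if_pos rfl, mul_one]

/-- The first range. -/
theorem sum_small_le {K Y N : ℕ} (hN : 2 ≤ N) (hY : 64 * 16 ^ Y ≤ N) :
    ∑ p ∈ (primesTo N).filter (fun p => qp K ≤ leastNonSquare p ∧ leastNonSquare p ≤ Y),
      (leastNonSquare p : ℝ) ≤
        96 * (∑' k, meanTerm (k + K)) * N / Real.log N + ((Y : ℝ) + 1) ^ 3 := by
  obtain ⟨I, hI⟩ : ∃ I, I = (Ico K (Y + 1)).filter fun k => qp k ≤ Y := ⟨_, rfl⟩
  obtain ⟨J, hJ⟩ : ∃ J, J =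
      (primesTo N).filter fun p => qp K ≤ leastNonSquare p ∧ leastNonSquare p ≤ Y := ⟨_, rfl⟩
  rw [← hJ]
  have hmap : ∀ p ∈ J, ∃ k ∈ I, leastNonSquare p = qp k ∧
      ∀ q ∈ firstPrimes k, IsSquare (q : ZMod p) := fun p hp => by
    obtain ⟨hp, h1, h2⟩ := mem_filter.1 (hJ ▸ hp)
    obtain ⟨-, hpp⟩ := mem_primesTo.1 hp
    have hp2 : p ≠ 2 := fun e => by
      subst e
      rw [leastNonSquare_two] at h1
      exact (prime_qp K).ne_zero (Nat.le_zero.1 h1)
    obtain ⟨k, hk⟩ := exists_qp_eq (prime_leastNonSquare hpp hp2)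
    refine ⟨k, hI ▸ mem_filter.2 ⟨mem_Ico.2 ⟨?_, ?_⟩, hk ▸ h2⟩, hk.symm, fun q hq =>
      isSquare_of_lt_leastNonSquare (hk ▸ (mem_firstPrimes.1 hq).2)⟩
    · by_contra hlt
      have := qp_lt_qp.2 (not_le.1 hlt)
      omega
    · have := succ_le_qp k
      omega
  have hle : ∑ p ∈ J, (leastNonSquare p : ℝ) ≤ ∑ k ∈ I,
      (qp k : ℝ) * primeCount (fun p => ∀ q ∈ firstPrimes k, IsSquare (q : ZMod p)) N := by
    simp only [primeCount_eq, card_filter, Nat.cast_sum, mul_sum]
    rw [sum_comm]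
    refine le_trans (sum_le_sum fun p hp => ?_)
      (sum_le_sum_of_subset_of_nonneg (hJ ▸ filter_subset _ _) fun p _ _ => sum_nonneg fun k _ =>
        by positivity)
    obtain ⟨k, hk, he, hsq⟩ := hmap p hp
    refine le_trans ?_ (single_le_sum (fun k _ => by positivity) hk)
    rw [he, if_pos hsq, Nat.cast_one, mul_one]
  refine hle.trans ((sum_le_sum fun k hk => mul_le_mul_of_nonneg_left
    (primeCount_squares_le (S := firstPrimes k) (fun q hq => (mem_firstPrimes.1 hq).1) hN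
      (modulus_sq_le (Y := Y) (fun q hq => ⟨(mem_firstPrimes.1 hq).1, ?_⟩) hY))
    (Nat.cast_nonneg _)).trans ?_)
  · rw [hI, mem_filter] at hk
    exact (mem_firstPrimes.1 hq).2.le.trans hk.2
  rw [sum_congr rfl fun k _ => mul_add (qp k : ℝ) _ _, sum_add_distrib]
  refine add_le_add ?_ ?_
  · have hpart : ∑ k ∈ I, meanTerm k ≤ ∑' k, meanTerm (k + K) := by
      refine (sum_le_sum_of_subset_of_nonneg (hI ▸ filter_subset _ _)
        fun k _ _ => meanTerm_nonneg k).trans ?_
      rw [sum_Ico_eq_sum_range]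
      refine le_trans (le_of_eq (sum_congr rfl fun k _ => by rw [add_comm K k]))
        (((summable_nat_add_iff K).2 summable_meanTerm).sum_le_tsum _
          fun k _ => meanTerm_nonneg _)
    refine le_trans (le_of_eq ?_) (div_le_div_of_nonneg_right (mul_le_mul_of_nonneg_right
      (mul_le_mul_of_nonneg_left hpart (show (0 : ℝ) ≤ 96 by norm_num)) (Nat.cast_nonneg N))
      (Real.log_natCast_nonneg N))
    rw [mul_sum, sum_mul, sum_div]
    refine sum_congr rfl fun k _ => ?_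
    rw [card_firstPrimes, meanTerm, one_div, inv_pow]
    field_simp
    ring
  · have h1 : ∀ k ∈ I, (qp k : ℝ) * (((firstPrimes k).card : ℝ) + 1) ≤ ((Y : ℝ) + 1) ^ 2 :=
      fun k hk => by
      rw [hI, mem_filter, mem_Ico] at hk
      rw [card_firstPrimes, sq]
      have h2 : (qp k : ℝ) ≤ Y := Nat.cast_le.2 hk.2
      have h3 : ((k + 1 : ℕ) : ℝ) ≤ ((Y + 1 : ℕ) : ℝ) := Nat.cast_le.2 (by omega)
      push_cast at h3
      exact mul_le_mul (by linarith) h3 (by positivity) (by positivity)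
    refine (sum_le_card_nsmul _ _ _ h1).trans ?_
    have h4 : (I.card : ℝ) ≤ (Y : ℝ) + 1 := by
      have : I.card ≤ Y + 1 := (hI ▸ card_filter_le _ _ : I.card ≤ _).trans (by simp)
      exact_mod_cast this
    rw [nsmul_eq_mul, show ((Y : ℝ) + 1) ^ 3 = ((Y : ℝ) + 1) * ((Y : ℝ) + 1) ^ 2 by ring]
    exact mul_le_mul_of_nonneg_right h4 (by positivity)

/-- The number of primes with `n_p > y`, `y ≤ log₁₆ (N / 64)`. -/
theorem card_gt_le {Y N : ℕ} (hN : 2 ≤ N) (hY : 64 * 16 ^ Y ≤ N) :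
    (((primesTo N).filter fun p => Y < leastNonSquare p).card : ℝ) ≤
      48 * (1 / 2) ^ Nat.primeCounting Y * N / Real.log N + ((Y : ℝ) + 2) := by
  obtain ⟨S, hS⟩ : ∃ S, S = (range (Y + 1)).filter Nat.Prime := ⟨_, rfl⟩
  have hScard : S.card = Nat.primeCounting Y := by
    rw [hS, Nat.primeCounting, Nat.primeCounting', Nat.count_eq_card_filter_range]
  have hSle : S.card ≤ Y + 1 := hS ▸ (card_filter_le _ _).trans (card_range _).le
  have hmem : ∀ q ∈ S, q.Prime ∧ q ≤ Y := fun q hq => by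
    rw [hS, mem_filter, mem_range] at hq
    exact ⟨hq.2, by omega⟩
  have h := primeCount_squares_le (S := S) (fun q hq => (hmem q hq).1) hN (modulus_sq_le hmem hY)
  rw [hScard] at h
  refine le_trans ?_ (h.trans (add_le_add le_rfl ?_))
  · rw [primeCount_eq, Nat.cast_le]
    refine card_le_card fun p hp => ?_
    simp only [mem_filter] at hp ⊢
    exact ⟨hp.1, fun q hq => isSquare_of_lt_leastNonSquare ((hmem q hq).2.trans_lt hp.2)⟩
  · rw [hScard] at hSle
    have : ((Nat.primeCounting Y : ℕ) : ℝ) ≤ ((Y + 1 : ℕ) : ℝ) := Nat.cast_le.2 hSle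
    push_cast at this
    linarith

/-- The level `log₁₆ (N / 64)`. -/
def level (N : ℕ) : ℕ := Nat.log 16 (N / 64)

theorem level_spec {N : ℕ} (hN : 64 ≤ N) : 64 * 16 ^ level N ≤ N :=
  le_trans (Nat.mul_le_mul_left 64 (Nat.pow_log_le_self 16 (show N / 64 ≠ 0 by omega)))
    (Nat.mul_div_le N 64)

theorem tendsto_level : Tendsto level atTop atTop :=
  tendsto_atTop.2 fun b => eventually_atTop.2 ⟨64 * 16 ^ b, fun N hN =>
    Nat.le_log_of_pow_le (by norm_num) ((Nat.le_div_iff_mul_le (by norm_num)).2 (by linarith))⟩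

theorem log_le_level {N : ℕ} (hN : 64 ≤ N) (h1 : 1 ≤ level N) :
    Real.log N ≤ 11 * level N ∧ (level N : ℝ) ≤ Real.log N := by
  have hN0 : (0 : ℝ) < N := Nat.cast_pos.2 (by omega)
  have h16 : Real.log 16 = 4 * Real.log 2 := by
    rw [show (16 : ℝ) = 2 ^ 4 by norm_num, Real.log_pow]; norm_num
  have h64 : Real.log 64 = 6 * Real.log 2 := by
    rw [show (64 : ℝ) = 2 ^ 6 by norm_num, Real.log_pow]; norm_num
  have hl : (1 : ℝ) ≤ level N := Nat.one_le_cast.2 h1
  have hlt : N / 64 < 16 ^ (level N + 1) :=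
    Nat.lt_pow_succ_log_self (by norm_num) _
  have hup : (N : ℝ) ≤ ((64 * 16 ^ (level N + 1) : ℕ) : ℝ) := Nat.cast_le.2 (by omega)
  have hlo : ((64 * 16 ^ level N : ℕ) : ℝ) ≤ N := Nat.cast_le.2 (level_spec hN)
  push_cast at hup hlo
  have e1 := Real.log_le_log hN0 hup
  have e2 := Real.log_le_log (by positivity) hlo
  rw [Real.log_mul (by norm_num) (by positivity), Real.log_pow, h64, h16] at e1 e2
  push_cast at e1
  constructor <;> nlinarith [Real.log_two_gt_d9, Real.log_two_lt_d9]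

/-- The error of the tail. -/
def tailErr (C : ℝ) (N : ℕ) : ℝ :=
  ((level N : ℝ) + 1) ^ 3 +
    ((Nat.log 2 N : ℝ)) ^ 10 *
      (48 * (1 / 2) ^ Nat.primeCounting (level N) * N / Real.log N + ((level N : ℝ) + 2)) +
    (N : ℝ) ^ (3 / 10 : ℝ) * (10 * (N : ℝ) ^ (3 / 5 : ℝ) * (Nat.log 2 N : ℝ) ^ 8) +
    C * (√(N : ℝ) + 1)

theorem exists_tailSum_le : ∃ C : ℝ, ∀ᶠ N : ℕ in atTop, ∀ K,
    tailSum K N ≤ 96 * (∑' k, meanTerm (k + K)) * N / Real.log N + tailErr C N := by
  obtain ⟨C, hC⟩ := FA.LinnikNonresidue.exists_card_exceptional_le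
    (show (0 : ℝ) < 3 / 10 by norm_num)
  refine ⟨C, ?_⟩
  filter_upwards [eventually_card_exceptional, eventually_ge_atTop 64] with N hexc hN K
  obtain ⟨Y, hY⟩ : ∃ Y, Y = Nat.log 2 N ^ 10 := ⟨_, rfl⟩
  obtain ⟨F, hF⟩ : ∃ F, F = (primesTo N).filter fun p => qp K ≤ leastNonSquare p := ⟨_, rfl⟩
  have hF2 : ∀ p ∈ F, p ≤ N ∧ p.Prime ∧ p ≠ 2 := fun p hp => by
    obtain ⟨hp, h⟩ := mem_filter.1 (hF ▸ hp)
    obtain ⟨hpN, hpp⟩ := mem_primesTo.1 hp
    refine ⟨hpN, hpp, fun e => ?_⟩
    subst e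
    rw [leastNonSquare_two] at h
    exact (prime_qp K).ne_zero (Nat.le_zero.1 h)
  obtain ⟨A, hA⟩ : ∃ A, A = (N : ℝ) ^ (3 / 10 : ℝ) := ⟨_, rfl⟩
  have hpt : ∀ p ∈ F, (leastNonSquare p : ℝ) ≤
      (if leastNonSquare p ≤ level N then (leastNonSquare p : ℝ) else 0) +
      (Y : ℝ) * (if level N < leastNonSquare p then 1 else 0) +
      A * (if Y < leastNonSquare p then 1 else 0) +
      (√(N : ℝ) + 1) * (if A < leastNonSquare p then 1 else 0) := fun p hp => by
    obtain ⟨hpN, hpp, hp2⟩ := hF2 p hp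
    have hA0 : 0 ≤ A := hA ▸ by positivity
    have hs0 : 0 ≤ √(N : ℝ) := Real.sqrt_nonneg _
    have hY0 : (0 : ℝ) ≤ Y := Nat.cast_nonneg _
    have hsq : (leastNonSquare p : ℝ) ≤ √(N : ℝ) + 1 := by
      have h2 := two_le_leastNonSquare hpp hp2
      have h := Nat.cast_le (α := ℝ) |>.2 ((sq_pred_le hpp hp2).trans hpN)
      rw [Nat.cast_pow, Nat.cast_sub (by omega), Nat.cast_one] at h
      linarith [Real.le_sqrt_of_sq_le h]
    rcases le_or_gt (leastNonSquare p) (level N) with h1 | h1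
    · rw [if_pos h1, if_neg (by omega : ¬ level N < leastNonSquare p), mul_zero, add_zero]
      split_ifs <;> linarith
    · rw [if_neg (not_le.2 h1), if_pos h1, mul_one, zero_add]
      rcases le_or_gt (leastNonSquare p) Y with h2 | h2
      · rw [if_neg (not_lt.2 h2)]
        have : (leastNonSquare p : ℝ) ≤ Y := Nat.cast_le.2 h2
        split_ifs <;> linarith
      · rw [if_pos h2, mul_one]
        rcases le_or_gt (leastNonSquare p : ℝ) A with h3 | h3
        · rw [if_neg (not_lt.2 h3)]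
          linarith
        · rw [if_pos h3]
          linarith
  rw [tailSum, ← hF]
  refine (sum_le_sum hpt).trans ?_
  rw [sum_add_distrib, sum_add_distrib, sum_add_distrib, ← mul_sum, ← mul_sum, ← mul_sum,
    sum_boole, sum_boole, sum_boole, tailErr, ← add_assoc, ← add_assoc, ← add_assoc]
  refine add_le_add (add_le_add (add_le_add ?_ ?_) ?_) ?_
  · rw [← sum_filter, hF, filter_filter]
    exact sum_small_le (by omega) (level_spec hN)
  · rw [hY, Nat.cast_pow]
    refine mul_le_mul_of_nonneg_left (le_trans ?_ (card_gt_le (by omega) (level_spec hN)))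
      (by positivity)
    exact Nat.cast_le.2 (card_le_card (hF ▸ filter_subset_filter _ (filter_subset _ _)))
  · rw [hA]
    refine mul_le_mul_of_nonneg_left (hexc _ fun p hp => ?_) (by positivity)
    obtain ⟨hp, h⟩ := mem_filter.1 hp
    obtain ⟨hpN, hpp, hp2⟩ := hF2 p hp
    exact ⟨hpp, hp2, hpN, hY ▸ h⟩
  · rw [mul_comm C]
    refine mul_le_mul_of_nonneg_left (hC N _ fun p hp => ?_) (by positivity)
    obtain ⟨hp, h⟩ := mem_filter.1 hp
    obtain ⟨hpN, hpp, -⟩ := hF2 p hp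
    refine ⟨hpp, hpN, fun m hm => isSquare_of_lt_leastNonSquare ?_⟩
    exact_mod_cast hm.trans_lt (hA ▸ h)

theorem tendsto_pow_log_div (k : ℕ) :
    Tendsto (fun N : ℕ => Real.log N ^ k / (N : ℝ)) atTop (𝓝 0) :=
  (Real.isLittleO_pow_log_id_atTop (n := k)).tendsto_div_nhds_zero.comp
    tendsto_natCast_atTop_atTop

theorem tendsto_tailErr (C : ℝ) :
    Tendsto (fun N : ℕ => tailErr C N * Real.log N / N) atTop (𝓝 0) := by
  have hL : ∀ N : ℕ, (Nat.log 2 N : ℝ) ≤ 2 * Real.log N := fun N => by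
    rcases Nat.eq_zero_or_pos N with rfl | hN
    · simp
    have h := Real.log_le_log (by positivity)
      (show ((2 : ℕ) ^ Nat.log 2 N : ℝ) ≤ N by exact_mod_cast Nat.pow_log_le_self 2 hN.ne')
    rw [Real.log_pow] at h
    push_cast at h
    nlinarith [Real.log_two_gt_d9, Nat.cast_nonneg (α := ℝ) (Nat.log 2 N)]
  have hev : ∀ᶠ N : ℕ in atTop, 64 ≤ N ∧ 1 ≤ level N ∧ 1 ≤ Real.log N ∧
      (level N : ℝ) ^ 11 ≤ (2 : ℝ) ^ Nat.primeCounting (level N) :=
    (eventually_ge_atTop 64).and ((tendsto_level.eventually (eventually_ge_atTop 1)).and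
      (((Real.tendsto_log_atTop.comp tendsto_natCast_atTop_atTop).eventually_ge_atTop 1).and
        (tendsto_level.eventually eventually_pow_le_two_pow)))
  have hs1 : Tendsto (fun N : ℕ => 8 * (Real.log N ^ 4 / (N : ℝ))) atTop (𝓝 0) := by
    simpa using (tendsto_pow_log_div 4).const_mul 8
  have hs2 : Tendsto (fun N : ℕ => 2 ^ 10 * 11 ^ 10 * 48 * ((level N : ℝ))⁻¹ +
      2 ^ 10 * 3 * (Real.log N ^ 12 / (N : ℝ))) atTop (𝓝 0) := by
    simpa using ((tendsto_inv_atTop_zero.comp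
      (tendsto_natCast_atTop_atTop.comp tendsto_level)).const_mul (2 ^ 10 * 11 ^ 10 * 48 : ℝ)).add
        ((tendsto_pow_log_div 12).const_mul (2 ^ 10 * 3 : ℝ))
  have hs3 : Tendsto (fun N : ℕ => 2560 * (Real.log N ^ (9 : ℝ) / (N : ℝ) ^ (1 / 10 : ℝ))) atTop
      (𝓝 0) := by
    simpa using (((isLittleO_log_rpow_rpow_atTop (9 : ℝ)
      (show (0 : ℝ) < 1 / 10 by norm_num)).tendsto_div_nhds_zero).comp
        tendsto_natCast_atTop_atTop).const_mul 2560
  have hs4 : Tendsto (fun N : ℕ => C * (√(N : ℝ) * Real.log N / N) + C * Real.log N / N) atTop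
      (𝓝 0) := by
    simpa using (tendsto_sqrt_mul_log_div.const_mul C).add (tendsto_const_mul_log_div C)
  have h1 : Tendsto (fun N : ℕ => ((level N : ℝ) + 1) ^ 3 * Real.log N / N) atTop (𝓝 0) := by
    refine squeeze_zero' (Eventually.of_forall fun N => by positivity) ?_ hs1
    filter_upwards [hev] with N ⟨hN, hl, hlog, _⟩
    obtain ⟨-, hb⟩ := log_le_level hN hl
    rw [mul_div_assoc, ← mul_div_assoc 8]
    rw [← mul_div_assoc, show 8 * Real.log N ^ 4 = (2 * Real.log N) ^ 3 * Real.log N by ring]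
    refine div_le_div_of_nonneg_right (mul_le_mul_of_nonneg_right
      (pow_le_pow_left₀ (by positivity) (by linarith) 3) (by linarith)) (Nat.cast_nonneg N)
  have h2 : Tendsto (fun N : ℕ => (Nat.log 2 N : ℝ) ^ 10 *
      (48 * (1 / 2) ^ Nat.primeCounting (level N) * N / Real.log N + ((level N : ℝ) + 2)) *
        Real.log N / N) atTop (𝓝 0) := by
    refine squeeze_zero' (Eventually.of_forall fun N => by positivity) ?_ hs2
    filter_upwards [hev] with N ⟨hN, hl, hlog, hpi⟩
    obtain ⟨ha, hb⟩ := log_le_level hN hl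
    have hN0 : (0 : ℝ) < N := Nat.cast_pos.2 (by omega)
    have hl0 : (1 : ℝ) ≤ level N := Nat.one_le_cast.2 hl
    have e : (Nat.log 2 N : ℝ) ^ 10 *
        (48 * (1 / 2) ^ Nat.primeCounting (level N) * N / Real.log N + ((level N : ℝ) + 2)) *
          Real.log N / N = (Nat.log 2 N : ℝ) ^ 10 * 48 / 2 ^ Nat.primeCounting (level N) +
            (Nat.log 2 N : ℝ) ^ 10 * ((level N : ℝ) + 2) * Real.log N / N := by
      rw [one_div, inv_pow]
      field_simp
    rw [e]
    refine add_le_add ?_ ?_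
    · calc (Nat.log 2 N : ℝ) ^ 10 * 48 / 2 ^ Nat.primeCounting (level N)
          ≤ (2 * (11 * (level N : ℝ))) ^ 10 * 48 / (level N : ℝ) ^ 11 := by
            refine div_le_div₀ (by positivity) ?_ (by positivity) hpi
            refine mul_le_mul_of_nonneg_right (pow_le_pow_left₀ (Nat.cast_nonneg _) ?_ _)
              (by norm_num)
            linarith [hL N]
        _ = 2 ^ 10 * 11 ^ 10 * 48 * ((level N : ℝ))⁻¹ := by field_simp
    · rw [← mul_div_assoc]
      refine div_le_div_of_nonneg_right ?_ hN0.le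
      calc (Nat.log 2 N : ℝ) ^ 10 * ((level N : ℝ) + 2) * Real.log N
          ≤ (2 * Real.log N) ^ 10 * (3 * Real.log N) * Real.log N :=
            mul_le_mul_of_nonneg_right (mul_le_mul (pow_le_pow_left₀ (Nat.cast_nonneg _) (hL N) _)
              (by linarith) (by positivity) (by positivity)) (by linarith)
        _ = 2 ^ 10 * 3 * Real.log N ^ 12 := by ring
  have h3 : Tendsto (fun N : ℕ => (N : ℝ) ^ (3 / 10 : ℝ) *
      (10 * (N : ℝ) ^ (3 / 5 : ℝ) * (Nat.log 2 N : ℝ) ^ 8) * Real.log N / N) atTop (𝓝 0) := by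
    refine squeeze_zero' (Eventually.of_forall fun N => by positivity) ?_ hs3
    filter_upwards [hev] with N ⟨hN, _, hlog, _⟩
    have hN0 : (0 : ℝ) < N := Nat.cast_pos.2 (by omega)
    have e : (N : ℝ) = (N : ℝ) ^ (3 / 10 : ℝ) * (N : ℝ) ^ (3 / 5 : ℝ) * (N : ℝ) ^ (1 / 10 : ℝ) := by
      rw [← Real.rpow_add hN0, ← Real.rpow_add hN0]; norm_num
    rw [show (9 : ℝ) = ((9 : ℕ) : ℝ) by norm_num, Real.rpow_natCast]
    calc (N : ℝ) ^ (3 / 10 : ℝ) * (10 * (N : ℝ) ^ (3 / 5 : ℝ) * (Nat.log 2 N : ℝ) ^ 8) *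
          Real.log N / N
        ≤ (N : ℝ) ^ (3 / 10 : ℝ) * (10 * (N : ℝ) ^ (3 / 5 : ℝ) * (2 * Real.log N) ^ 8) *
          Real.log N / N := by
          have := pow_le_pow_left₀ (Nat.cast_nonneg _) (hL N) 8
          gcongr
      _ = _ := by
          obtain ⟨l, hl⟩ : ∃ l, l = Real.log N := ⟨_, rfl⟩
          obtain ⟨a, ha⟩ : ∃ a, a = (N : ℝ) ^ (3 / 10 : ℝ) := ⟨_, rfl⟩
          obtain ⟨b, hb⟩ : ∃ b, b = (N : ℝ) ^ (3 / 5 : ℝ) := ⟨_, rfl⟩
          obtain ⟨c, hc⟩ : ∃ c, c = (N : ℝ) ^ (1 / 10 : ℝ) := ⟨_, rfl⟩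
          have hne : a ≠ 0 ∧ b ≠ 0 ∧ c ≠ 0 :=
            ⟨ha ▸ (Real.rpow_pos_of_pos hN0 _).ne', hb ▸ (Real.rpow_pos_of_pos hN0 _).ne',
              hc ▸ (Real.rpow_pos_of_pos hN0 _).ne'⟩
          obtain ⟨hane, hbne, hcne⟩ := hne
          rw [← hl, ← ha, ← hb, ← hc]
          rw [← ha, ← hb, ← hc] at e
          rw [e]
          field_simp
          ring
  have h4 : Tendsto (fun N : ℕ => C * (√(N : ℝ) + 1) * Real.log N / N) atTop (𝓝 0) :=
    hs4.congr fun N => by ring
  have h := ((h1.add h2).add h3).add h4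
  simp only [add_zero] at h
  exact h.congr fun N => by simp only [tailErr, add_mul, add_div]

/-- **The mean of the least non-residue, against `N / log N`.** -/
theorem tendsto_nonSquareSum :
    Tendsto (fun N : ℕ => nonSquareSum N * Real.log N / N) atTop (𝓝 (∑' k, meanTerm k)) := by
  obtain ⟨C, hC⟩ := exists_tailSum_le
  have hsplit : ∀ K N, nonSquareSum N * Real.log N / N =
      (∑ k ∈ range K, (qp k : ℝ) *
        ((primeCount (fun p => leastNonSquare p = qp k) N : ℝ) * Real.log N / N)) +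
          tailSum K N * Real.log N / N := fun K N => by
    rw [nonSquareSum_eq K N, add_mul, add_div, sum_mul, sum_div]
    refine congrArg (· + _) (sum_congr rfl fun k _ => ?_)
    ring
  have hhead : ∀ K, Tendsto (fun N : ℕ => ∑ k ∈ range K, (qp k : ℝ) *
      ((primeCount (fun p => leastNonSquare p = qp k) N : ℝ) * Real.log N / N)) atTop
        (𝓝 (∑ k ∈ range K, meanTerm k)) := fun K => by
    refine tendsto_finsetSum _ fun k _ => ?_
    have e : meanTerm k = (qp k : ℝ) * (1 / 2) ^ (k + 1) := by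
      rw [meanTerm, one_div, inv_pow, div_eq_mul_inv]
    rw [e]
    exact Tendsto.const_mul _ (hasPrimeDensity_eq_qp k)
  have hS := summable_meanTerm.hasSum.tendsto_sum_nat
  refine tendsto_order.2 ⟨fun b hb => ?_, fun b hb => ?_⟩
  · obtain ⟨K, hK⟩ := (hS.eventually (eventually_gt_nhds hb)).exists
    filter_upwards [(hhead K).eventually (eventually_gt_nhds hK)] with N hN
    rw [hsplit K N]
    exact hN.trans_le (le_add_of_nonneg_right (div_nonneg (mul_nonneg
      (sum_nonneg fun _ _ => Nat.cast_nonneg _) (Real.log_natCast_nonneg N)) (Nat.cast_nonneg N)))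
  · have hlim := hS.add ((tendsto_sum_nat_add meanTerm).const_mul 96)
    rw [mul_zero, add_zero] at hlim
    obtain ⟨K, hK⟩ := (hlim.eventually (eventually_lt_nhds hb)).exists
    have hKlim := ((hhead K).add (tendsto_const_nhds.add (tendsto_tailErr C)))
      |>.eventually (eventually_lt_nhds (show (∑ k ∈ range K, meanTerm k) +
        (96 * (∑' k, meanTerm (k + K)) + 0) < b by rwa [add_zero]))
    filter_upwards [hKlim, hC, eventually_ge_atTop 2] with N hN hT hN2
    rw [hsplit K N]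
    refine lt_of_le_of_lt (add_le_add le_rfl ?_) hN
    refine (div_le_div_of_nonneg_right (mul_le_mul_of_nonneg_right (hT K)
      (Real.log_natCast_nonneg N)) (Nat.cast_nonneg N)).trans (le_of_eq ?_)
    have hlog : Real.log N ≠ 0 := (Real.log_pos (Nat.one_lt_cast.2 (by omega))).ne'
    have hN0 : (N : ℝ) ≠ 0 := Nat.cast_ne_zero.2 (by omega)
    field_simp

/-- **Erdős (1961): the average least quadratic non-residue.** -/
theorem tendsto_mean :
    Tendsto (fun N : ℕ => nonSquareSum N / Nat.primeCounting N) atTop (𝓝 (∑' k, meanTerm k)) := by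
  have h1 := Tendsto.div tendsto_nonSquareSum hasPrimeDensity_true one_ne_zero
  rw [div_one] at h1
  refine h1.congr' ?_
  filter_upwards [eventually_gt_atTop 1] with N hN
  have hl : Real.log N / N ≠ 0 :=
    div_ne_zero (Real.log_pos (Nat.one_lt_cast.2 hN)).ne' (Nat.cast_ne_zero.2 (by omega))
  have hpi : Nat.primeCounting N = primeCount (fun _ => True) N := by
    rw [Nat.primeCounting, Nat.primeCounting', Nat.count_eq_card_filter_range, primeCount]
    congr 1
    ext p
    simp only [mem_filter, mem_range, mem_Icc, and_true]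
    exact ⟨fun h => ⟨⟨h.2.one_le, by omega⟩, h.2⟩, fun h => ⟨by omega, h.2⟩⟩
  rw [Pi.div_apply, mul_div_assoc _ (Real.log _), mul_div_assoc _ (Real.log _),
    mul_div_mul_right _ _ hl, hpi]

end FA.ErdosNonresidueMean

end
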