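import Fermat.Agent.LinnikNonresidue.Main
import Fermat.Agent.ErdosNonresidueMean.Basic
import Fermat.Agent.Root.SummaryNearlyCyclic

/-!
# Two growth estimates and the primes without non-residues below a power of the logarithm

With `L = log₂ N`, `Y = L ^ 10` and `Y ^ r ≤ N ^ 3` the products of `r` primes `≤ Y`
give `L ^ (8 r)`
smooth numbers up to `N ^ 3`, so the large sieve leaves `O (N ^ (3/5) L ^ 8)` primes.
-/

set_option autoImplicit false

noncomputable section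

open Finset Filter
open FA.LinnikNonresidue (smoothUpTo mem_smoothUpTo card_mul_card_smooth_le)
open scoped Classical Topology

namespace FA.ErdosNonresidueMean

theorem eventually_log_le (c : ℝ) (k : ℕ) :
    ∀ᶠ y : ℕ in atTop, c * Real.log y ^ k ≤ y := by
  rcases le_or_gt c 0 with hc | hc
  · filter_upwards [eventually_ge_atTop 1] with y _
    exact (mul_nonpos_of_nonpos_of_nonneg hc
      (pow_nonneg (Real.log_natCast_nonneg y) k)).trans (Nat.cast_nonneg y)
  · have h := ((Real.isLittleO_pow_log_id_atTop (n := k)).comp_tendsto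
      tendsto_natCast_atTop_atTop).def (inv_pos.2 hc)
    filter_upwards [h] with y hy
    simp only [Function.comp_apply, id_eq, Real.norm_eq_abs, Nat.abs_cast,
      abs_of_nonneg (pow_nonneg (Real.log_natCast_nonneg y) k)] at hy
    rwa [le_inv_mul_iff₀ hc] at hy

/-- `y ^ 11 ≤ 2 ^ π y`. -/
theorem eventually_pow_le_two_pow :
    ∀ᶠ y : ℕ in atTop, (y : ℝ) ^ 11 ≤ (2 : ℝ) ^ Nat.primeCounting y := by
  filter_upwards [eventually_log_le 60 2, eventually_ge_atTop 64] with y h1 hy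
  have hy1 : (1 : ℝ) < y := by exact_mod_cast (show 1 < y by omega)
  have hl : 0 < Real.log y := Real.log_pos hy1
  have h2 := FA.NearlyCyclic.third_le_primeCounting hy
  rw [div_le_iff₀ (by positivity)] at h2
  have h3 : 20 * Real.log y ≤ Nat.primeCounting y := by
    refine le_of_mul_le_mul_right ?_ (show (0 : ℝ) < 3 * Real.log y by positivity)
    linarith [show 20 * Real.log y * (3 * Real.log y) = 60 * Real.log y ^ 2 by ring]
  rw [← Real.log_le_log_iff (by positivity) (by positivity), Real.log_pow, Real.log_pow]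
  push_cast
  nlinarith [Real.log_two_gt_d9]

/-- Many smooth numbers. -/
theorem eventually_le_smooth : ∀ᶠ N : ℕ in atTop, ((N : ℝ) ^ (12 / 5 : ℝ)) ≤
    ((smoothUpTo (N ^ 3) (((Nat.log 2 N) ^ 10 : ℕ) : ℝ)).card : ℝ) * (Nat.log 2 N : ℝ) ^ 8 := by
  have hL : Tendsto (Nat.log 2) atTop atTop :=
    tendsto_atTop.2 fun b => eventually_atTop.2 ⟨2 ^ b, fun N hN =>
      Nat.le_log_of_pow_le (by norm_num) hN⟩
  filter_upwards [hL.eventually (eventually_log_le 210 1), hL.eventually (eventually_ge_atTop 64),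
    eventually_ge_atTop 1] with N hlog hL64 hN
  obtain ⟨L, hLdef⟩ : ∃ L, L = Nat.log 2 N := ⟨_, rfl⟩
  rw [← hLdef] at hlog hL64 ⊢
  obtain ⟨Y, hY⟩ : ∃ Y, Y = L ^ 10 := ⟨_, rfl⟩
  rw [← hY]
  have hY2 : 2 ≤ Y := hY ▸ le_trans (by omega) (Nat.le_self_pow (by norm_num) L)
  obtain ⟨r, hr⟩ : ∃ r, r = Nat.log Y (N ^ 3) := ⟨_, rfl⟩
  have hYr : Y ^ r ≤ N ^ 3 := hr ▸ Nat.pow_log_le_self Y (by positivity)
  have hYr1 : N ^ 3 < Y ^ (r + 1) := hr ▸ Nat.lt_pow_succ_log_self (by omega) _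
  have hr6 : r ≤ 6 * L := by
    have h1 : 2 ^ r < 2 ^ (3 * (L + 1)) := by
      refine ((Nat.pow_le_pow_left hY2 r).trans hYr).trans_lt ?_
      rw [mul_comm, pow_mul]
      exact Nat.pow_lt_pow_left (hLdef ▸ Nat.lt_pow_succ_log_self (by norm_num) N) (by norm_num)
    have := (Nat.pow_lt_pow_iff_right (by norm_num : 1 < 2)).1 h1
    omega
  have hpi : r * (L ^ 8 + 1) ≤ Nat.primeCounting Y := by
    refine (Nat.mul_le_mul_right _ hr6).trans ?_
    have h2 := FA.NearlyCyclic.third_le_primeCounting (n := Y)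
      (hY ▸ hL64.trans (Nat.le_self_pow (by norm_num) L))
    have hl : Real.log (Y : ℝ) = 10 * Real.log L := by
      rw [hY, Nat.cast_pow, Real.log_pow]; norm_num
    have hL1 : (1 : ℝ) < L := by exact_mod_cast (show 1 < L by omega)
    have hll := Real.log_pos hL1
    rw [pow_one] at hlog
    rw [hl, hY, div_le_iff₀ (by positivity), Nat.cast_pow, ← hY] at h2
    have h3 : ((6 * L * (L ^ 8 + 1) : ℕ) : ℝ) ≤ 7 * (L : ℝ) ^ 9 := by
      have h1 : (6 : ℝ) ≤ (L : ℝ) ^ 8 := by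
        have : (64 : ℝ) ≤ L := by exact_mod_cast hL64
        exact le_trans (by linarith) (le_self_pow₀ hL1.le (by norm_num))
      push_cast
      linarith [mul_le_mul_of_nonneg_right h1 (show (0 : ℝ) ≤ L by positivity),
        show (L : ℝ) ^ 9 = L ^ 8 * L by ring]
    refine Nat.cast_le.1 (h3.trans (le_of_mul_le_mul_right ?_
      (show (0 : ℝ) < 30 * Real.log L by positivity)))
    calc 7 * (L : ℝ) ^ 9 * (30 * Real.log L) = (L : ℝ) ^ 9 * (210 * Real.log L) := by ring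
      _ ≤ (L : ℝ) ^ 9 * L := mul_le_mul_of_nonneg_left hlog (by positivity)
      _ = (L : ℝ) ^ 10 := by ring
      _ ≤ _ := h2.trans_eq (by ring)
  obtain ⟨P, hP⟩ : ∃ P, P = (Finset.range (Y + 1)).filter Nat.Prime := ⟨_, rfl⟩
  have hPcard : P.card = Nat.primeCounting Y := by
    rw [hP, Nat.primeCounting, Nat.primeCounting', Nat.count_eq_card_filter_range]
  have hsub : (P.powersetCard r).image (fun U => ∏ q ∈ U, q) ⊆ smoothUpTo (N ^ 3) (Y : ℝ) := by
    intro n hn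
    obtain ⟨U, hU, rfl⟩ := mem_image.1 hn
    obtain ⟨hUP, hUr⟩ := mem_powersetCard.1 hU
    have hpr : ∀ q ∈ U, q.Prime ∧ q ≤ Y := fun q hq => by
      have := mem_filter.1 (hP ▸ hUP hq)
      exact ⟨this.2, Nat.lt_succ_iff.1 (mem_range.1 this.1)⟩
    refine mem_smoothUpTo.2 ⟨⟨prod_pos fun q hq => (hpr q hq).1.pos, le_trans ?_ hYr⟩,
      fun q hq hd => ?_⟩
    · rw [← hUr]
      exact prod_le_pow_card _ _ _ fun q hq => (hpr q hq).2
    · obtain ⟨x, hx, hqx⟩ := (Nat.prime_iff.1 hq).dvd_finsetProd_iff _ |>.1 hd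
      rw [(Nat.prime_dvd_prime_iff_eq hq (hpr x hx).1).1 hqx]
      exact_mod_cast (hpr x hx).2
  have hinj : Set.InjOn (fun U => ∏ q ∈ U, q) (P.powersetCard r : Set (Finset ℕ)) :=
    fun U hU V hV e => by
      have h : ∀ W ∈ P.powersetCard r, (∏ q ∈ W, q).primeFactors = W := fun W hW =>
        Nat.primeFactors_prod fun q hq =>
          (mem_filter.1 (hP ▸ (mem_powersetCard.1 hW).1 hq)).2
      rw [← h U hU, ← h V hV]
      exact congrArg Nat.primeFactors e
  have hcard := card_le_card hsub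
  rw [card_image_of_injOn hinj, card_powersetCard, hPcard] at hcard
  have hchoose : (L ^ 8) ^ r ≤ (Nat.primeCounting Y).choose r := by
    refine Nat.le_of_mul_le_mul_right ?_ (Nat.pos_of_ne_zero fun h => ?_) (c := r ^ r)
    · calc (L ^ 8) ^ r * r ^ r = (r * L ^ 8) ^ r := by rw [← mul_pow, mul_comm]
        _ ≤ (Nat.primeCounting Y + 1 - r) ^ r := Nat.pow_le_pow_left (by
          rw [mul_add, mul_one] at hpi; omega) r
        _ ≤ (Nat.primeCounting Y).descFactorial r := Nat.pow_sub_le_descFactorial _ r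
        _ = r.factorial * (Nat.primeCounting Y).choose r :=
          Nat.descFactorial_eq_factorial_mul_choose _ r
        _ ≤ r ^ r * (Nat.primeCounting Y).choose r :=
          Nat.mul_le_mul_right _ (Nat.factorial_le_pow r)
        _ = _ := mul_comm _ _
    · rcases Nat.eq_zero_or_pos r with rfl | hr0
      · simp at h
      · exact (pow_pos hr0 r).ne' h
  obtain ⟨Ψ, hΨ⟩ : ∃ Ψ, Ψ = (smoothUpTo (N ^ 3) (Y : ℝ)).card := ⟨_, rfl⟩
  rw [← hΨ] at hcard ⊢
  have h5 : N ^ 12 ≤ (Ψ * L ^ 8) ^ 5 := by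
    calc N ^ 12 = (N ^ 3) ^ 4 := by rw [← pow_mul]
      _ ≤ (Y ^ (r + 1)) ^ 4 := Nat.pow_le_pow_left hYr1.le 4
      _ = ((L ^ 8) ^ r * L ^ 8) ^ 5 := by
        rw [hY, ← pow_mul, ← pow_mul, ← pow_mul, ← pow_add, ← pow_mul]
        congr 1
        ring
      _ ≤ (Ψ * L ^ 8) ^ 5 :=
        Nat.pow_le_pow_left (Nat.mul_le_mul_right _ (hchoose.trans hcard)) 5
  refine (pow_le_pow_iff_left₀ (by positivity) (by positivity) (show (5 : ℕ) ≠ 0 by norm_num)).1 ?_
  rw [← Real.rpow_natCast ((N : ℝ) ^ (12 / 5 : ℝ)) 5, ← Real.rpow_mul (Nat.cast_nonneg N),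
    show (12 / 5 : ℝ) * ((5 : ℕ) : ℝ) = ((12 : ℕ) : ℝ) by norm_num, Real.rpow_natCast]
  exact_mod_cast h5

/-- **The primes without non-residues below `(log₂ N) ^ 10`.** -/
theorem eventually_card_exceptional : ∀ᶠ N : ℕ in atTop, ∀ P : Finset ℕ,
    (∀ p ∈ P, p.Prime ∧ p ≠ 2 ∧ p ≤ N ∧ Nat.log 2 N ^ 10 < leastNonSquare p) →
      (P.card : ℝ) ≤ 10 * (N : ℝ) ^ (3 / 5 : ℝ) * (Nat.log 2 N : ℝ) ^ 8 := by
  filter_upwards [eventually_le_smooth, eventually_ge_atTop 1] with N hΨ hN P hP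
  have h := card_mul_card_smooth_le hN (y := ((Nat.log 2 N ^ 10 : ℕ) : ℝ)) P fun p hp =>
    ⟨(hP p hp).1, (hP p hp).2.1, (hP p hp).2.2.1, fun m hm =>
      isSquare_of_lt_leastNonSquare (lt_of_le_of_lt (Nat.cast_le.1 hm) (hP p hp).2.2.2)⟩
  have hN0 : (0 : ℝ) < N := Nat.cast_pos.2 hN
  refine le_of_mul_le_mul_right ?_ (Real.rpow_pos_of_pos hN0 (12 / 5 : ℝ))
  refine (mul_le_mul_of_nonneg_left hΨ (Nat.cast_nonneg _)).trans ?_
  rw [← mul_assoc]
  refine (mul_le_mul_of_nonneg_right h (by positivity)).trans (le_of_eq ?_)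
  have e : (N : ℝ) ^ (3 / 5 : ℝ) * (N : ℝ) ^ (12 / 5 : ℝ) = (N : ℝ) ^ 3 := by
    rw [← Real.rpow_add hN0, show (3 / 5 : ℝ) + 12 / 5 = ((3 : ℕ) : ℝ) by norm_num,
      Real.rpow_natCast]
  rw [← e]
  ring

end FA.ErdosNonresidueMean

end
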