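import Fermat.Agent.ErdosNonresidueMean.Upper
import Fermat.Agent.ErdosNonresidueMean.Smooth

/-!
# The series and the finitely many first values

`∑ q_k / 2 ^ (k + 1)` converges, and the primes with least non-residue `q_k` have density
`2 ^ (-(k + 1))`.
-/

set_option autoImplicit false

noncomputable section

open Finset Filter Topology
open FA.HasseEvenOrder (HasPrimeDensity primeCount)
open scoped Classical NumberTheorySymbols

namespace FA.ErdosNonresidueMean

/-- The `k`th prime, from `k = 0`. -/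
abbrev qp (k : ℕ) : ℕ := Nat.nth Nat.Prime k

theorem prime_qp (k : ℕ) : (qp k).Prime := Nat.prime_nth_prime k

theorem succ_le_qp (k : ℕ) : k + 1 ≤ qp k := by
  have := Nat.add_two_le_nth_prime k
  unfold qp
  omega

theorem qp_lt_qp {j k : ℕ} : qp j < qp k ↔ j < k := Nat.nth_lt_nth Nat.infinite_setOfPred_prime

theorem qp_injective : Function.Injective qp :=
  Nat.nth_injective Nat.infinite_setOfPred_prime

theorem exists_qp_eq {q : ℕ} (hq : q.Prime) : ∃ k, qp k = q :=
  ⟨Nat.count Nat.Prime q, Nat.nth_count hq⟩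

/-- The first `k` primes. -/
def firstPrimes (k : ℕ) : Finset ℕ := (range k).image qp

theorem mem_firstPrimes {k q : ℕ} : q ∈ firstPrimes k ↔ q.Prime ∧ q < qp k := by
  rw [firstPrimes, mem_image]
  constructor
  · rintro ⟨j, hj, rfl⟩
    exact ⟨prime_qp j, qp_lt_qp.2 (mem_range.1 hj)⟩
  · rintro ⟨hq, hlt⟩
    obtain ⟨j, rfl⟩ := exists_qp_eq hq
    exact ⟨j, mem_range.2 (qp_lt_qp.1 hlt), rfl⟩

theorem card_firstPrimes (k : ℕ) : (firstPrimes k).card = k := by
  rw [firstPrimes, card_image_of_injective _ qp_injective, card_range]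

/-- The series. -/
def meanTerm (k : ℕ) : ℝ := (qp k : ℝ) / 2 ^ (k + 1)

theorem meanTerm_nonneg (k : ℕ) : 0 ≤ meanTerm k := by unfold meanTerm; positivity

theorem summable_meanTerm : Summable meanTerm := by
  obtain ⟨y₀, hy₀⟩ := eventually_atTop.1 eventually_pow_le_two_pow
  refine Summable.of_norm_bounded_eventually_nat
    (g := fun k => (1 : ℝ) / (((k + 1 : ℕ) : ℝ)) ^ 2)
    ((summable_nat_add_iff 1).2 (Real.summable_one_div_nat_pow.2 one_lt_two)) ?_
  filter_upwards [eventually_ge_atTop y₀] with k hk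
  have hqk := succ_le_qp k
  have h := hy₀ (qp k) (by omega)
  have hpi : Nat.primeCounting (qp k) = k + 1 := by
    rw [Nat.primeCounting, Nat.primeCounting', Nat.count_succ, if_pos (prime_qp k)]
    exact congrArg (· + 1) (Nat.primeCounting'_nth_eq k)
  rw [hpi] at h
  have hq1 : (1 : ℝ) ≤ qp k := by exact_mod_cast (show 1 ≤ qp k by omega)
  rw [Real.norm_eq_abs, abs_of_nonneg (meanTerm_nonneg k), meanTerm]
  calc (qp k : ℝ) / 2 ^ (k + 1) ≤ (qp k : ℝ) / (qp k : ℝ) ^ 11 :=
        div_le_div_of_nonneg_left (by linarith) (by positivity) h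
    _ ≤ (qp k : ℝ) / (qp k : ℝ) ^ 3 :=
        div_le_div_of_nonneg_left (by linarith) (by positivity)
          (pow_le_pow_right₀ hq1 (by norm_num))
    _ = 1 / (qp k : ℝ) ^ 2 := by field_simp
    _ ≤ 1 / ((k + 1 : ℕ) : ℝ) ^ 2 :=
        one_div_le_one_div_of_le (by positivity)
          (pow_le_pow_left₀ (Nat.cast_nonneg _) (Nat.cast_le.2 hqk) 2)

theorem leastNonSquare_eq_iff {p k : ℕ} (hp : p.Prime) (hp2 : p ≠ 2) (hlt : qp k < p) :
    leastNonSquare p = qp k ↔ Pattern (firstPrimes (k + 1)) {qp k} p := by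
  have hnd : ∀ q ∈ firstPrimes (k + 1), ¬ p ∣ q := fun q hq hd => by
    obtain ⟨hqp, hqk⟩ := mem_firstPrimes.1 hq
    rw [Nat.prime_dvd_prime_iff_eq hp hqp] at hd
    obtain ⟨j, rfl⟩ := exists_qp_eq hqp
    have := Nat.lt_succ_iff.1 (qp_lt_qp.1 hqk)
    rcases this.lt_or_eq with h | h
    · have := qp_lt_qp.2 h
      omega
    · rw [h] at hd
      omega
  constructor
  · intro h q hq
    rw [sgn]
    split_ifs with hT
    · rw [mem_singleton] at hT
      subst hT
      rw [jacobiSym_eq_neg_one_iff hp, ← h]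
      exact leastNonSquare_spec hp hp2
    · rw [jacobiSym_eq_one_iff hp (hnd q hq)]
      rw [mem_singleton] at hT
      obtain ⟨hqp, hqk⟩ := mem_firstPrimes.1 hq
      obtain ⟨j, rfl⟩ := exists_qp_eq hqp
      refine isSquare_of_lt_leastNonSquare (h ▸ qp_lt_qp.2 ?_)
      exact lt_of_le_of_ne (Nat.lt_succ_iff.1 (qp_lt_qp.1 hqk)) fun e => hT (e ▸ rfl)
  · intro h
    refine le_antisymm (Nat.sInf_le ?_) ((le_leastNonSquare_iff hp hp2).2 fun q hq hqp => ?_)
    · have := h (qp k) (mem_firstPrimes.2 ⟨prime_qp k, qp_lt_qp.2 (Nat.lt_succ_self k)⟩)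
      rw [sgn, if_pos (mem_singleton_self _), jacobiSym_eq_neg_one_iff hp] at this
      exact this
    · have hmem : q ∈ firstPrimes (k + 1) :=
        mem_firstPrimes.2 ⟨hqp, hq.trans (qp_lt_qp.2 (Nat.lt_succ_self k))⟩
      have := h q hmem
      rw [sgn, if_neg (fun e => hq.ne (mem_singleton.1 e)),
        jacobiSym_eq_one_iff hp (hnd q hmem)] at this
      exact this

/-- **The density of the primes with least non-residue the `k`th prime.** -/
theorem hasPrimeDensity_eq_qp (k : ℕ) :
    HasPrimeDensity (fun p => leastNonSquare p = qp k) ((1 / 2) ^ (k + 1)) := by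
  have h := hasPrimeDensity_pattern (S := firstPrimes (k + 1))
    (fun q hq => (mem_firstPrimes.1 hq).1) {qp k}
  rw [card_firstPrimes] at h
  refine h.congr_off (Nat.factorial_ne_zero (qp k + 2)) fun p hp hd => ?_
  rw [hp.dvd_factorial] at hd
  exact (leastNonSquare_eq_iff hp (by omega) (by omega)).symm

end FA.ErdosNonresidueMean

end
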