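import Fermat.Agent.ErdosNonresidueMean.Density
import Fermat.Agent.Root.SummaryPrimesMinusOne
import Mathlib.NumberTheory.Primorial

/-!
# The primes modulo which the first primes are squares

They lie in at most a `2 ^ (-k)` share of the classes modulo `8 q₁ ⋯ q_k`, so the inequality of Brun
and Titchmarsh bounds their number while the modulus is at most `√N`.
-/

set_option autoImplicit false

noncomputable section

open Finset
open FA.HasseEvenOrder (primeCount)
open scoped Classical NumberTheorySymbols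

namespace FA.ErdosNonresidueMean

/-- `8 ∏ q`. -/
def modulus (S : Finset ℕ) : ℕ := 8 * ∏ q ∈ S, q

/-- The classes in which all `q ∈ S` have symbol one. -/
def goodClasses (S : Finset ℕ) : Finset ℕ :=
  (range (modulus S)).filter fun a => a.Coprime (modulus S) ∧ ∀ q ∈ S, J((q : ℤ) | a) = 1

theorem modulus_pos {S : Finset ℕ} (hS : ∀ q ∈ S, q.Prime) : 0 < modulus S :=
  Nat.mul_pos (by norm_num) (prod_pos fun q hq => (hS q hq).pos)

theorem odd_of_coprime {S : Finset ℕ} {a : ℕ} (h : a.Coprime (modulus S)) : Odd a := by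
  have h2 : a.Coprime 2 := h.coprime_dvd_right (Dvd.dvd.mul_right (by norm_num) _)
  exact Nat.coprime_two_right.1 h2

theorem jacobi_mod_modulus {S : Finset ℕ} {q a : ℕ} (hq : q ∈ S) (ha : Odd a) :
    J((q : ℤ) | a % modulus S) = J((q : ℤ) | a) := by
  have hd : 4 * q ∣ modulus S :=
    Nat.mul_dvd_mul (by norm_num) (dvd_prod_of_mem _ hq)
  have hodd : Odd (a % modulus S) := by
    rw [Nat.odd_iff] at ha ⊢
    rw [Nat.mod_mod_of_dvd _ (show 2 ∣ modulus S from Dvd.dvd.mul_right (by norm_num) _)]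
    exact ha
  rw [jacobiSym.mod_right' q hodd, jacobiSym.mod_right' q ha, Nat.mod_mod_of_dvd _ hd]

theorem card_goodClasses_mul_le {S : Finset ℕ} (hS : ∀ q ∈ S, q.Prime) :
    (goodClasses S).card * 2 ^ S.card ≤ (modulus S).totient := by
  obtain ⟨P, hP⟩ : ∃ P : Finset ℕ → ℕ, ∀ T, modulus S < P T ∧ (P T).Prime ∧ Pattern S T (P T) :=
    ⟨fun T => Classical.choose (exists_prime_pattern hS T (modulus S)),
      fun T => Classical.choose_spec (exists_prime_pattern hS T (modulus S))⟩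
  have hcop : ∀ T, (P T).Coprime (modulus S) := fun T =>
    (hP T).2.1.coprime_iff_not_dvd.2 fun hd =>
      absurd (Nat.le_of_dvd (modulus_pos hS) hd) (not_le.2 (hP T).1)
  have hval : ∀ a ∈ goodClasses S, ∀ T, ∀ q ∈ S,
      J((q : ℤ) | a * P T % modulus S) = sgn T q := fun a ha T q hq => by
    obtain ⟨-, hac, ha1⟩ := mem_filter.1 ha
    haveI : NeZero a := ⟨(odd_of_coprime hac).pos.ne'⟩
    haveI : NeZero (P T) := ⟨(hP T).2.1.ne_zero⟩
    rw [jacobi_mod_modulus hq (odd_of_coprime (hac.mul_left (hcop T))), jacobiSym.mul_right,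
      ha1 q hq, one_mul, (hP T).2.2 q hq]
  rw [Nat.totient_eq_card_coprime, mul_comm, ← card_powerset, ← card_product]
  refine card_le_card_of_injOn (fun x => x.2 * P x.1 % modulus S) (fun x hx => ?_) ?_
  · obtain ⟨-, hac, -⟩ := mem_filter.1 (mem_product.1 (mem_coe.1 hx)).2
    refine mem_coe.2 (mem_filter.2 ⟨mem_range.2 (Nat.mod_lt _ (modulus_pos hS)), ?_⟩)
    refine Nat.Coprime.symm ?_
    show Nat.gcd (_ % modulus S) (modulus S) = 1
    rw [← Nat.gcd_rec]
    exact Nat.coprime_comm.1 (hac.mul_left (hcop _))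
  · rintro ⟨T, a⟩ hx ⟨T', a'⟩ hy e
    rw [mem_coe, mem_product, mem_powerset] at hx hy
    simp only at e
    have hTT : T = T' := Finset.ext fun q => by
      by_cases hq : q ∈ S
      · have h1 := hval a hx.2 T q hq
        rw [e, hval a' hy.2 T' q hq, sgn, sgn] at h1
        split_ifs at h1 <;> simp_all
      · exact iff_of_false (fun h => hq (hx.1 h)) fun h => hq (hy.1 h)
    subst hTT
    have h2 : a ≡ a' [MOD modulus S] :=
      Nat.ModEq.cancel_right_of_coprime (Nat.coprime_comm.1 (hcop T)) e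
    rw [Nat.ModEq, Nat.mod_eq_of_lt (mem_range.1 (mem_filter.1 hx.2).1),
      Nat.mod_eq_of_lt (mem_range.1 (mem_filter.1 hy.2).1)] at h2
    exact Prod.ext rfl h2

/-- **The upper bound.** -/
theorem primeCount_squares_le {S : Finset ℕ} (hS : ∀ q ∈ S, q.Prime) {N : ℕ} (hN : 2 ≤ N)
    (hM : modulus S ^ 2 ≤ N) :
    (primeCount (fun p => ∀ q ∈ S, IsSquare (q : ZMod p)) N : ℝ) ≤
      48 * (1 / 2) ^ S.card * N / Real.log N + (S.card + 1) := by
  have hM0 := modulus_pos hS
  have hMlt : modulus S < N := by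
    have h8 : 8 ≤ modulus S := Nat.le_mul_of_pos_right 8 (prod_pos fun q hq => (hS q hq).pos)
    nlinarith
  obtain ⟨A, hA⟩ : ∃ A, A = goodClasses S := ⟨_, rfl⟩
  have hsub : (primesTo N).filter (fun p => ∀ q ∈ S, IsSquare (q : ZMod p)) ⊆
      insert 2 S ∪ A.biUnion fun a =>
        (Icc 1 N).filter fun p => p.Prime ∧ p ≡ a [MOD modulus S] := fun p hp => by
    obtain ⟨hp, hsq⟩ := mem_filter.1 hp
    obtain ⟨hpN, hpp⟩ := mem_primesTo.1 hp
    by_cases hpS : p ∈ insert 2 S
    · exact mem_union_left _ hpS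
    rw [mem_insert, not_or] at hpS
    have hcop : p.Coprime (modulus S) := by
      rw [modulus, Nat.coprime_mul_iff_right, Nat.coprime_prod_right_iff]
      refine ⟨hpp.coprime_iff_not_dvd.2 fun h => hpS.1 ?_, fun q hq =>
        (Nat.coprime_primes hpp (hS q hq)).2 fun e => hpS.2 (e ▸ hq)⟩
      exact (Nat.prime_dvd_prime_iff_eq hpp Nat.prime_two).1
        (hpp.dvd_of_dvd_pow (show p ∣ 2 ^ 3 by norm_num; exact h))
    refine mem_union_right _ (mem_biUnion.2 ⟨p % modulus S, ?_, mem_filter.2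
      ⟨mem_Icc.2 ⟨hpp.one_le, hpN⟩, hpp, (Nat.mod_modEq p _).symm⟩⟩)
    refine hA ▸ mem_filter.2 ⟨mem_range.2 (Nat.mod_lt _ hM0), ?_, fun q hq => ?_⟩
    · rw [Nat.Coprime, ← Nat.gcd_rec]
      exact Nat.coprime_comm.1 hcop
    · rw [jacobi_mod_modulus hq (odd_of_coprime hcop), jacobiSym_eq_one_iff hpp fun h => hpS.2
        ((Nat.prime_dvd_prime_iff_eq hpp (hS q hq)).1 h ▸ hq)]
      exact hsq q hq
  have hlogN : 0 < Real.log N := Real.log_pos (Nat.one_lt_cast.2 (by omega))
  have hMR : (0 : ℝ) < modulus S := Nat.cast_pos.2 hM0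
  have hlog : Real.log N / 2 ≤ Real.log ((N : ℝ) / modulus S) := by
    rw [Real.log_div (Nat.cast_ne_zero.2 (by omega)) hMR.ne']
    have h := Real.log_le_log (pow_pos hMR 2) (show (modulus S : ℝ) ^ 2 ≤ N by exact_mod_cast hM)
    rw [Real.log_pow] at h
    push_cast at h
    linarith
  have hφ : (0 : ℝ) < (modulus S).totient := Nat.cast_pos.2 (Nat.totient_pos.2 hM0)
  rw [primeCount_eq]
  refine le_trans (le_of_eq ?_) (((Nat.cast_le (α := ℝ)).2 ((card_le_card hsub).trans
    ((card_union_le _ _).trans (Nat.add_le_add_left card_biUnion_le _)))).trans ?_)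
  · congr!
  rw [Nat.cast_add, Nat.cast_sum, add_comm]
  refine add_le_add ?_ (by exact_mod_cast card_insert_le _ _)
  refine (sum_le_card_nsmul _ _ (24 * N / ((modulus S).totient * (Real.log N / 2))) fun a _ => ?_
    ).trans ?_
  · refine (FA.PrimesMinusOne.Summary.brun_titchmarsh N (modulus S) a hM0 hMlt).trans ?_
    exact div_le_div_of_nonneg_left (by positivity) (by positivity)
      (mul_le_mul_of_nonneg_left hlog hφ.le)
  · rw [nsmul_eq_mul]
    have h := card_goodClasses_mul_le hS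
    rw [← hA] at h
    have hR : (A.card : ℝ) * 2 ^ S.card ≤ (modulus S).totient := by exact_mod_cast h
    have h2 : (0 : ℝ) < 2 ^ S.card := by positivity
    rw [one_div, inv_pow]
    calc (A.card : ℝ) * (24 * N / ((modulus S).totient * (Real.log N / 2)))
        = (A.card * 2 ^ S.card / (modulus S).totient) *
            (48 * ((2 : ℝ) ^ S.card)⁻¹ * N / Real.log N) := by field_simp; ring
      _ ≤ 1 * (48 * ((2 : ℝ) ^ S.card)⁻¹ * N / Real.log N) :=
          mul_le_mul_of_nonneg_right ((div_le_one hφ).2 hR) (by positivity)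
      _ = 48 * ((2 : ℝ) ^ S.card)⁻¹ * N / Real.log N := one_mul _

/-- The moduli of sets of primes `≤ Y`. -/
theorem modulus_sq_le {S : Finset ℕ} {Y N : ℕ} (hS : ∀ q ∈ S, q.Prime ∧ q ≤ Y)
    (hN : 64 * 16 ^ Y ≤ N) : modulus S ^ 2 ≤ N := by
  refine le_trans ?_ hN
  have h : ∏ q ∈ S, q ≤ 4 ^ Y := by
    refine le_trans ?_ (primorial_le_four_pow Y)
    exact prod_le_prod_of_subset_of_one_le' (fun q hq => mem_filter.2
      ⟨mem_range.2 (Nat.lt_succ_of_le (hS q hq).2), (hS q hq).1⟩)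
      fun q hq _ => (mem_filter.1 hq).2.one_le
  rw [modulus, mul_pow, show (8 : ℕ) ^ 2 = 64 by norm_num, show (16 : ℕ) = 4 ^ 2 by norm_num,
    ← pow_mul, mul_comm 2 Y, pow_mul]
  exact Nat.mul_le_mul_left _ (Nat.pow_le_pow_left h 2)

end FA.ErdosNonresidueMean

end
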